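import Mathlib
import Fermat.Prelude.Def_GaloisRep_Residual

/-!
# Program A (S29), packaging (helper54)

`residual_of_rep`: the conclusion of the frozen S29 (`∃ ρ : ResidualGaloisRep k, ρ.IsAttachedTo g φ ∧
∀ ℓ ∤ N p, ρ.IsUnramifiedAt ℓ`) from a two-dimensional representation over a field `κ` mapping
to `k`, of finite level, unramified outside `N p`, with the expected characteristic polynomials
at the Frobenius elements; and `residual_level_zero` for the (vacuous) level `N = 0`.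
-/

set_option autoImplicit false
set_option linter.style.haveILetI false

open Polynomial

namespace Fermat.Agent.S29.H54

local notation "Qbar" => AlgebraicClosure ℚ
local notation "Γ" => (AlgebraicClosure ℚ ≃ₐ[ℚ] AlgebraicClosure ℚ)

/-- **S29 packaging.** -/
theorem residual_of_rep {N : ℕ} (g : CuspForm (CongruenceSubgroup.Gamma0 N) 2) (p : ℕ)
    {k : Type} [Field k] (φ : integralClosure ℤ ℂ →+* k)
    {κ : Type} [Field κ] (ι : κ →+* k) (π : integralClosure ℤ ℂ →+* κ)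
    (hπ : ∀ a, ι (π a) = φ a)
    {V : Type} [AddCommGroup V] [Module κ V] [Module.Finite κ V]
    (ρ : Γ →* Module.End κ V) (h2 : Module.finrank κ V = 2)
    (hfin : ∃ L : IntermediateField ℚ Qbar, FiniteDimensional ℚ L ∧
      ∀ σ : Γ, (∀ x ∈ L, σ x = x) → ρ σ = 1)
    (hchar : ∀ ℓ : ℕ, ℓ.Prime → ¬ ℓ ∣ N → (ℓ : k) ≠ 0 →
      ∀ A : ValuationSubring Qbar, A.LiesOverPrime ℓ →
        ∀ σ : Γ, A.IsFrobeniusAt σ ℓ →
          ∃ a : integralClosure ℤ ℂ, (a : ℂ) = ModularFormClass.qCoeff g ℓ ∧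
            LinearMap.charpoly (ρ σ) = X ^ 2 - C (π a) * X + C (ℓ : κ))
    (hunr : ∀ ℓ : ℕ, ℓ.Prime → ¬ ℓ ∣ N * p →
      ∀ A : ValuationSubring Qbar, A.LiesOverPrime ℓ →
        ∀ σ ∈ A.inertiaSubgroupIn ℚ, ρ σ = 1) :
    ∃ r : ResidualGaloisRep k, r.IsAttachedTo g φ ∧
      ∀ ℓ : ℕ, ℓ.Prime → ¬ ℓ ∣ N * p → r.IsUnramifiedAt ℓ := by
  let r₀ : ResidualGaloisRep κ :=
    { V := V
      finrank_eq := h2
      ρ := ρ
      factorsThroughFiniteLevel := hfin }
  letI : Algebra κ k := ι.toAlgebra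
  have hρ : ∀ σ : Γ, (r₀.baseChangeAlong ι).ρ σ = (ρ σ).baseChange k := fun σ => rfl
  refine ⟨r₀.baseChangeAlong ι, ?_, ?_⟩
  · intro ℓ hℓ hℓN hℓk A hA σ hσ
    obtain ⟨a, ha, hc⟩ := hchar ℓ hℓ hℓN hℓk A hA σ hσ
    refine ⟨a, ha, ?_⟩
    have h1 : LinearMap.charpoly ((ρ σ).baseChange k) =
        (LinearMap.charpoly (ρ σ)).map (algebraMap κ k) := LinearMap.charpoly_baseChange _ _
    have h3 : algebraMap κ k = ι := rfl
    change LinearMap.charpoly ((ρ σ).baseChange k) = _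
    rw [h1, hc, h3]
    simp [hπ]
  · intro ℓ hℓ hℓN A hA σ hσ
    rw [hρ, hunr ℓ hℓ hℓN A hA σ hσ, LinearMap.baseChange_one]
    rfl

/-- The trivial two-dimensional residual representation. -/
noncomputable def trivialRep (k : Type) [Field k] : ResidualGaloisRep k :=
  { V := Fin 2 → k
    finrank_eq := by simp
    ρ := 1
    factorsThroughFiniteLevel := ⟨⊥, inferInstance, fun _ _ => rfl⟩ }

/-- **S29 at level `0`** (vacuous: every prime divides `0`). -/
theorem residual_level_zero (g : CuspForm (CongruenceSubgroup.Gamma0 0) 2) (p : ℕ)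
    {k : Type} [Field k] (φ : integralClosure ℤ ℂ →+* k) :
    ∃ r : ResidualGaloisRep k, r.IsAttachedTo g φ ∧
      ∀ ℓ : ℕ, ℓ.Prime → ¬ ℓ ∣ 0 * p → r.IsUnramifiedAt ℓ :=
  ⟨trivialRep k, fun ℓ _ hℓ0 => absurd (dvd_zero ℓ) hℓ0,
    fun ℓ _ hℓ0 => absurd (by rw [zero_mul]; exact dvd_zero ℓ) hℓ0⟩

end Fermat.Agent.S29.H54
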