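import Mathlib
import Fermat.Prelude.Def_EllipticCurve_FrobeniusTrace
import Fermat.Prelude.Def_GaloisRep_Residual
import Fermat.Agent.S14.H52.Cyclo
import Fermat.Agent.S05.Frey
import Fermat.Agent.S05.H63.Inertia

/-!
# Program A (S29 + S42), leaf CYC (helper54)

The mod `p` cyclotomic character `eps p κ : Gal(ℚ̄/ℚ) →* κˣ` with values in a field of
characteristic `p`, and its three arithmetic properties:

* `eps_of_isFrobeniusAt`: `eps σ = ℓ` for a Frobenius element `σ` at a prime `ℓ ≠ p`;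
* `eps_of_mem_inertia`: `eps σ = 1` for `σ` in an inertia group at a prime `ℓ ≠ p`;
* `eps_factors`: `eps` factors through a finite level.
-/

set_option autoImplicit false
set_option linter.style.haveILetI false

namespace Fermat.Agent.S29.H54

open Fermat.Agent.S14.H52 ExtCitation

local notation "Qbar" => AlgebraicClosure ℚ
local notation "Γ" => (AlgebraicClosure ℚ ≃ₐ[ℚ] AlgebraicClosure ℚ)

section Rigid

variable {L : Type*} [Field L]

/-- A `p`-th root of unity congruent to `1` modulo the maximal ideal of a valuation ring in which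
`p` is a unit is equal to `1`. -/
theorem eq_one_of_pow_eq_one_of_sub_mem_nonunits (A : ValuationSubring L) {p : ℕ}
    (hpA : (p : L) ∉ A.nonunits) {ξ : L} (hξ : ξ ^ p = 1) (h1 : ξ - 1 ∈ A.nonunits) : ξ = 1 := by
  by_contra hne
  have hξA : ξ ∈ A := by
    have h2 : ξ - 1 ∈ A := A.nonunits_subset h1
    have h3 : ξ = (ξ - 1) + 1 := by ring
    rw [h3]
    exact add_mem h2 (one_mem A)
  set x : A := ⟨ξ, hξA⟩ with hx
  have hxm : x - 1 ∈ IsLocalRing.maximalIdeal A := by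
    rw [← ValuationSubring.coe_mem_nonunits_iff]
    exact h1
  have hres : IsLocalRing.residue A x = 1 := by
    have h2 : IsLocalRing.residue A (x - 1) = 0 := (IsLocalRing.residue_eq_zero_iff _).mpr hxm
    rw [map_sub, map_one, sub_eq_zero] at h2
    exact h2
  -- the geometric sum vanishes
  have hgeom : ∑ i ∈ Finset.range p, ξ ^ i = 0 := by
    have h2 : (∑ i ∈ Finset.range p, ξ ^ i) * (ξ - 1) = 0 := by
      rw [geom_sum_mul, hξ, sub_self]
    rcases mul_eq_zero.mp h2 with h3 | h3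
    · exact h3
    · exact absurd (sub_eq_zero.mp h3) hne
  have hgeomA : ∑ i ∈ Finset.range p, x ^ i = 0 := by
    apply Subtype.ext
    push_cast
    exact hgeom
  have h4 : IsLocalRing.residue A (p : A) = 0 := by
    have h5 := congrArg (IsLocalRing.residue A) hgeomA
    rw [map_sum, map_zero] at h5
    simp only [map_pow, hres, one_pow, Finset.sum_const, Finset.card_range, nsmul_eq_mul,
      mul_one] at h5
    rw [map_natCast]
    exact h5
  have h6 : (p : A) ∈ IsLocalRing.maximalIdeal A := (IsLocalRing.residue_eq_zero_iff _).mp h4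
  rw [← ValuationSubring.coe_mem_nonunits_iff] at h6
  exact hpA (by simpa using h6)

/-- Two `p`-th roots of unity which are congruent modulo the maximal ideal of a valuation ring in
which `p` is a unit are equal. -/
theorem eq_of_pow_eq_one_of_sub_mem_nonunits (A : ValuationSubring L) {p : ℕ} (hp0 : p ≠ 0)
    (hpA : (p : L) ∉ A.nonunits) {ξ η : L} (hξ : ξ ^ p = 1) (hη : η ^ p = 1)
    (hηA : η ∈ A) (h1 : ξ - η ∈ A.nonunits) : ξ = η := by
  have hη0 : η ≠ 0 := by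
    rintro rfl
    rw [zero_pow hp0] at hη
    exact zero_ne_one hη
  have hinv : η * η ^ (p - 1) = 1 := by
    rw [← pow_succ', Nat.sub_add_cancel (Nat.one_le_iff_ne_zero.mpr hp0), hη]
  have h2 : ξ * η ^ (p - 1) - 1 = (ξ - η) * η ^ (p - 1) := by
    rw [sub_mul, hinv]
  have h3 : ξ * η ^ (p - 1) - 1 ∈ A.nonunits := by
    rw [h2]
    have h4 : A.valuation ((ξ - η) * η ^ (p - 1)) < 1 := by
      rw [map_mul]
      have h5 : A.valuation (ξ - η) < 1 := A.mem_nonunits_iff.mp h1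
      have h6 : A.valuation (η ^ (p - 1)) ≤ 1 :=
        (A.valuation_le_one_iff _).mpr (A.pow_mem hηA _)
      exact mul_lt_of_lt_of_le_one h5 h6
    exact A.mem_nonunits_iff.mpr h4
  have h7 : (ξ * η ^ (p - 1)) ^ p = 1 := by
    rw [mul_pow, hξ, one_mul, ← pow_mul, mul_comm, pow_mul, hη, one_pow]
  have h8 := eq_one_of_pow_eq_one_of_sub_mem_nonunits A hpA h7 h3
  calc ξ = ξ * (η * η ^ (p - 1)) := by rw [hinv, mul_one]
    _ = (ξ * η ^ (p - 1)) * η := by ring
    _ = η := by rw [h8, one_mul]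

end Rigid

section Chi

variable {p : ℕ} [Fact p.Prime]

/-- A prime different from the residue characteristic is a unit. -/
theorem natCast_notMem_nonunits (A : ValuationSubring Qbar) {ℓ : ℕ} (hℓ : ℓ.Prime)
    (hA : A.LiesOverPrime ℓ) (hℓp : ℓ ≠ p) : (p : Qbar) ∉ A.nonunits := by
  have hp : p.Prime := Fact.out
  intro h
  have h1 : A.valuation (ℓ : Qbar) < 1 := A.mem_nonunits_iff.mp hA
  have h2 : A.valuation (p : Qbar) = 1 :=
    Fermat.Agent.S05.val_natCast_eq_one A hℓ h1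
      (fun hdvd => hℓp ((Nat.prime_dvd_prime_iff_eq hℓ hp).mp hdvd))
  have h3 : A.valuation (p : Qbar) < 1 := A.mem_nonunits_iff.mp h
  rw [h2] at h3
  exact lt_irrefl _ h3

/-- If `σ ζ ≡ ζ ^ n` modulo the maximal ideal of a valuation ring in which `p` is a unit, for a
primitive `p`-th root of unity `ζ`, then `χ(σ) = n`. -/
theorem chi_eq_of_sub_mem_nonunits (A : ValuationSubring Qbar) (hpA : (p : Qbar) ∉ A.nonunits)
    (σ : Γ) (n : ℕ) (h : ∀ ζ : Qbar, ζ ^ p = 1 → σ ζ - ζ ^ n ∈ A.nonunits) :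
    chi p σ = (n : ZMod p) := by
  have hp : p.Prime := Fact.out
  obtain ⟨ζ, hζ⟩ := exists_primitiveRoot p
  have hζp : ζ ^ p = 1 := hζ.pow_eq_one
  have hint : IsIntegral ℤ ζ := hζ.isIntegral hp.pos
  have hmem : ∀ x : Qbar, IsIntegral ℤ x → x ∈ A := by
    intro x hx
    have h1 : IsIntegral A x := hx.tower_top
    obtain ⟨y, hy⟩ := IsIntegrallyClosed.isIntegral_iff.mp h1
    rw [← hy]
    exact y.2
  have h1 := h ζ hζp
  rw [cycloExp_spec σ hζp] at h1
  have h2 : ζ ^ cycloExp p σ = ζ ^ n :=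
    eq_of_pow_eq_one_of_sub_mem_nonunits A hp.ne_zero hpA
      (by rw [← pow_mul, mul_comm, pow_mul, hζp, one_pow])
      (by rw [← pow_mul, mul_comm, pow_mul, hζp, one_pow])
      (hmem _ (hint.pow _)) h1
  have hmod : ∀ a : ℕ, ζ ^ a = ζ ^ (a % p) := by
    intro a
    conv_lhs => rw [← Nat.mod_add_div a p, pow_add, pow_mul, hζp, one_pow, mul_one]
  have h3 : cycloExp p σ ≡ n [MOD p] := by
    rw [hmod (cycloExp p σ), hmod n] at h2
    exact hζ.pow_inj (Nat.mod_lt _ hp.pos) (Nat.mod_lt _ hp.pos) h2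
  unfold chi
  exact (ZMod.natCast_eq_natCast_iff _ _ _).mpr h3

/-- The cyclotomic character at a Frobenius element. -/
theorem chi_of_isFrobeniusAt (A : ValuationSubring Qbar) {ℓ : ℕ} (hℓ : ℓ.Prime)
    (hA : A.LiesOverPrime ℓ) (hℓp : ℓ ≠ p) {σ : Γ} (hσ : A.IsFrobeniusAt σ ℓ) :
    chi p σ = (ℓ : ZMod p) := by
  have hp : p.Prime := Fact.out
  refine chi_eq_of_sub_mem_nonunits A (natCast_notMem_nonunits A hℓ hA hℓp) σ ℓ fun ζ hζ => ?_
  have hζA : ζ ∈ A := by
    have hint : IsIntegral ℤ ζ := ⟨Polynomial.X ^ p - 1,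
      Polynomial.monic_X_pow_sub_C 1 hp.ne_zero, by simp [hζ]⟩
    have h1 : IsIntegral A ζ := hint.tower_top
    obtain ⟨y, hy⟩ := IsIntegrallyClosed.isIntegral_iff.mp h1
    rw [← hy]
    exact y.2
  obtain ⟨hdec, h⟩ := hσ
  have h1 := h (IsLocalRing.residue A ⟨ζ, hζA⟩)
  rw [← IsLocalRing.ResidueField.residue_smul, ← map_pow, ← sub_eq_zero, ← map_sub,
    IsLocalRing.residue_eq_zero_iff, ← ValuationSubring.coe_mem_nonunits_iff] at h1
  exact h1

/-- The cyclotomic character on inertia. -/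
theorem chi_of_mem_inertia (A : ValuationSubring Qbar) {ℓ : ℕ} (hℓ : ℓ.Prime)
    (hA : A.LiesOverPrime ℓ) (hℓp : ℓ ≠ p) {σ : Γ} (hσ : σ ∈ A.inertiaSubgroupIn ℚ) :
    chi p σ = 1 := by
  have hp : p.Prime := Fact.out
  have h := chi_eq_of_sub_mem_nonunits A (natCast_notMem_nonunits A hℓ hA hℓp) σ 1 fun ζ hζ => by
    have hζA : ζ ∈ A := by
      have hint : IsIntegral ℤ ζ := ⟨Polynomial.X ^ p - 1,
        Polynomial.monic_X_pow_sub_C 1 hp.ne_zero, by simp [hζ]⟩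
      have h1 : IsIntegral A ζ := hint.tower_top
      obtain ⟨y, hy⟩ := IsIntegrallyClosed.isIntegral_iff.mp h1
      rw [← hy]
      exact y.2
    rw [pow_one]
    exact Fermat.Agent.S05.H63.apply_sub_mem_nonunits_of_mem_inertiaSubgroupIn hσ hζA
  rw [h, Nat.cast_one]

/-- The cyclotomic character as a homomorphism to `(ZMod p)ˣ`. -/
noncomputable def chiHom (p : ℕ) [Fact p.Prime] : Γ →* (ZMod p)ˣ where
  toFun σ := Units.mk0 (chi p σ) (chi_ne_zero σ)
  map_one' := Units.ext chi_one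
  map_mul' σ τ := Units.ext (chi_mul σ τ)

@[simp] theorem coe_chiHom (σ : Γ) : ((chiHom p σ : (ZMod p)ˣ) : ZMod p) = chi p σ := rfl

/-- The mod `p` cyclotomic character with values in a field of characteristic `p`. -/
noncomputable def eps (p : ℕ) [Fact p.Prime] (κ : Type*) [Field κ] [CharP κ p] : Γ →* κˣ :=
  (Units.map (ZMod.castHom (dvd_refl p) κ : ZMod p →* κ)).comp (chiHom p)

variable {κ : Type*} [Field κ] [CharP κ p]

theorem coe_eps (σ : Γ) : ((eps p κ σ : κˣ) : κ) = ZMod.castHom (dvd_refl p) κ (chi p σ) := rfl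

/-- **(CYC, Frobenius)** -/
theorem eps_of_isFrobeniusAt (A : ValuationSubring Qbar) {ℓ : ℕ} (hℓ : ℓ.Prime)
    (hA : A.LiesOverPrime ℓ) (hℓp : ℓ ≠ p) {σ : Γ} (hσ : A.IsFrobeniusAt σ ℓ) :
    ((eps p κ σ : κˣ) : κ) = (ℓ : κ) := by
  rw [coe_eps, chi_of_isFrobeniusAt A hℓ hA hℓp hσ, map_natCast]

/-- **(CYC, inertia)** -/
theorem eps_of_mem_inertia (A : ValuationSubring Qbar) {ℓ : ℕ} (hℓ : ℓ.Prime)
    (hA : A.LiesOverPrime ℓ) (hℓp : ℓ ≠ p) {σ : Γ} (hσ : σ ∈ A.inertiaSubgroupIn ℚ) :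
    eps p κ σ = 1 := by
  apply Units.ext
  rw [coe_eps, chi_of_mem_inertia A hℓ hA hℓp hσ, map_one, Units.val_one]

/-- **(CYC, finite level)** -/
theorem eps_factors : ∃ L : IntermediateField ℚ Qbar, FiniteDimensional ℚ L ∧
    ∀ σ : Γ, (∀ x ∈ L, σ x = x) → eps p κ σ = 1 := by
  have hp : p.Prime := Fact.out
  obtain ⟨ζ, hζ⟩ := exists_primitiveRoot p
  have hint : IsIntegral ℚ ζ := (hζ.isIntegral hp.pos).tower_top
  refine ⟨IntermediateField.adjoin ℚ {ζ}, IntermediateField.adjoin.finiteDimensional hint,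
    fun σ hσ => ?_⟩
  have h1 : σ ζ = ζ := hσ ζ (IntermediateField.mem_adjoin_simple_self ℚ ζ)
  have h2 : chi p σ = 1 := (chi_eq_one_iff_fix σ hζ).mpr h1
  apply Units.ext
  rw [coe_eps, h2, map_one, Units.val_one]

/-- **(CYC, finite level)**, as the Prelude predicate. -/
theorem eps_factorsThroughFiniteLevel (p : ℕ) [Fact p.Prime] (κ : Type) [Field κ] [CharP κ p] :
    GaloisFactorsThroughFiniteLevel (eps p κ) :=
  eps_factors

theorem chiHom_factors (p : ℕ) [Fact p.Prime] :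
    ∃ L : IntermediateField ℚ Qbar, FiniteDimensional ℚ L ∧
      ∀ σ : Γ, (∀ x ∈ L, σ x = x) → chiHom p σ = 1 := by
  have hp : p.Prime := Fact.out
  obtain ⟨ζ, hζ⟩ := exists_primitiveRoot p
  have hint : IsIntegral ℚ ζ := (hζ.isIntegral hp.pos).tower_top
  refine ⟨IntermediateField.adjoin ℚ {ζ}, IntermediateField.adjoin.finiteDimensional hint,
    fun σ hσ => ?_⟩
  have h1 : σ ζ = ζ := hσ ζ (IntermediateField.mem_adjoin_simple_self ℚ ζ)
  exact Units.ext ((chi_eq_one_iff_fix σ hζ).mpr h1)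

end Chi

/-- **(CYC)** in the shape of the consumer side of Program A (#1911), with the inertia clause:
a character `ε : Gal(ℚ̄/ℚ) →* (ZMod p)ˣ` of finite level with `ε(Frob_ℓ) = ℓ` for every Frobenius
element at a prime `ℓ ≠ p`, trivial on the inertia groups at the primes `ℓ ≠ p`. -/
theorem cyc_inertia (p : ℕ) (hp : p.Prime) :
    ∃ ε : Γ →* (ZMod p)ˣ,
      (∃ L : IntermediateField ℚ Qbar, FiniteDimensional ℚ L ∧
        ∀ σ : Γ, (∀ y ∈ L, σ y = y) → ε σ = 1) ∧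
      (∀ ℓ : ℕ, ℓ.Prime → ℓ ≠ p → ∀ A : ValuationSubring Qbar, A.LiesOverPrime ℓ →
        ∀ φ : Γ, A.IsFrobeniusAt φ ℓ → ((ε φ : (ZMod p)ˣ) : ZMod p) = (ℓ : ZMod p)) ∧
      (∀ ℓ : ℕ, ℓ.Prime → ℓ ≠ p → ∀ A : ValuationSubring Qbar, A.LiesOverPrime ℓ →
        ∀ σ ∈ A.inertiaSubgroupIn ℚ, ε σ = 1) := by
  haveI : Fact p.Prime := ⟨hp⟩
  exact ⟨chiHom p, chiHom_factors p,
    fun ℓ hℓ hℓp A hA φ hφ => chi_of_isFrobeniusAt A hℓ hA hℓp hφ,
    fun ℓ hℓ hℓp A hA σ hσ => Units.ext (chi_of_mem_inertia A hℓ hA hℓp hσ)⟩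

/-- **(CYC)**, verbatim in the shape of #1911. -/
theorem cyc (p : ℕ) (hp : p.Prime) :
    ∃ ε : Γ →* (ZMod p)ˣ,
      (∃ L : IntermediateField ℚ Qbar, FiniteDimensional ℚ L ∧
        ∀ σ : Γ, (∀ y ∈ L, σ y = y) → ε σ = 1) ∧
      ∀ ℓ : ℕ, ℓ.Prime → ℓ ≠ p → ∀ A : ValuationSubring Qbar, A.LiesOverPrime ℓ →
        ∀ φ : Γ, A.IsFrobeniusAt φ ℓ → ((ε φ : (ZMod p)ˣ) : ZMod p) = (ℓ : ZMod p) := by
  obtain ⟨ε, h1, h2, -⟩ := cyc_inertia p hp
  exact ⟨ε, h1, h2⟩

end Fermat.Agent.S29.H54
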