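import Mathlib
import Fermat.Prelude.Def_GaloisRep_Residual

/-!
# Program A (S29 + S42): the interface between the module side and the top (helper54)

`ModuleStatement N p κ a`: a nonzero finite-dimensional `κ`-linear representation `W` of
`Gal(ℚ̄/ℚ)` of finite level, unramified outside `N p`, on which every Frobenius element `σ` at a
prime `ℓ ∤ N p` satisfies `σ² - a ℓ σ + ℓ = 0`.

`ModuleHyp N g p 𝔪 h𝔪`: such a module over `κ = ℤ̄ ⧸ 𝔪` with `a ℓ` the reduction of the `ℓ`-th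
Fourier coefficient of `g`.  `TopHyp p`: `ModuleHyp` for all levels `N ≠ 0`, all normalised
eigenforms `g` of level `N` and all maximal ideals `𝔪 ∋ p`.  This is the single hypothesis of the
tops `s29_of_topHyp`, `s42_of_topHyp`.
-/

set_option autoImplicit false

namespace Fermat.Agent.S29.H54

local notation "Qbar" => AlgebraicClosure ℚ
local notation "Γ" => (AlgebraicClosure ℚ ≃ₐ[ℚ] AlgebraicClosure ℚ)

/-- The module statement: the only input of the consumer top of Program A. -/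
def ModuleStatement (N p : ℕ) (κ : Type) [Field κ] (a : ℕ → κ) : Prop :=
  ∃ (W : Type) (_ : AddCommGroup W) (_ : Module κ W) (r : Γ →* Module.End κ W),
    Nontrivial W ∧ Module.Finite κ W ∧ GaloisFactorsThroughFiniteLevel r ∧
    (∀ ℓ : ℕ, ℓ.Prime → ¬ ℓ ∣ N * p → ∀ A : ValuationSubring Qbar, A.LiesOverPrime ℓ →
      ∀ σ : Γ, A.IsFrobeniusAt σ ℓ →
        r σ * r σ - a ℓ • r σ + (ℓ : κ) • (1 : Module.End κ W) = 0) ∧
    (∀ ℓ : ℕ, ℓ.Prime → ¬ ℓ ∣ N * p → ∀ A : ValuationSubring Qbar, A.LiesOverPrime ℓ →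
      ∀ σ ∈ A.inertiaSubgroupIn ℚ, r σ = 1)

/-- The module statement for an eigenform `g` of level `N` and a maximal ideal `𝔪` of `ℤ̄`. -/
def ModuleHyp (N : ℕ) (g : CuspForm (CongruenceSubgroup.Gamma0 N) 2) (p : ℕ)
    (𝔪 : Ideal (integralClosure ℤ ℂ)) (h𝔪 : 𝔪.IsMaximal) : Prop :=
  ∃ a : ℕ → integralClosure ℤ ℂ,
    (∀ ℓ : ℕ, ℓ.Prime → ¬ ℓ ∣ N * p → (a ℓ : ℂ) = ModularFormClass.qCoeff g ℓ) ∧
    @ModuleStatement N p (integralClosure ℤ ℂ ⧸ 𝔪) (@Ideal.Quotient.field _ _ 𝔪 h𝔪)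
      (fun ℓ => Ideal.Quotient.mk 𝔪 (a ℓ))

/-- The hypothesis of the tops of S29 and S42, for a fixed residue characteristic `p`. -/
def TopHyp (p : ℕ) : Prop :=
  ∀ (N : ℕ) [NeZero N] (g : CuspForm (CongruenceSubgroup.Gamma0 N) 2),
    g.IsNormalizedEigenform →
    ∀ (𝔪 : Ideal (integralClosure ℤ ℂ)) (h𝔪 : 𝔪.IsMaximal),
      (p : integralClosure ℤ ℂ) ∈ 𝔪 → ModuleHyp N g p 𝔪 h𝔪

end Fermat.Agent.S29.H54
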