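import Mathlib
import Fermat.Agent.S29.H54.ModuleStatement
import Fermat.Agent.S29.H54.Cyc
import Fermat.Agent.S29.H39.QuadQbar
import Fermat.Agent.S29.H3.QuadRepTop

/-!
# Program A (S29 + S42), leaf RHO (helper54)

`rho_of_module`: from the module statement over an algebraically closed field `κ` of
characteristic `p` to a two-dimensional representation `ρ` of `Gal(ℚ̄/ℚ)` over `κ`, of finite
level, unramified outside `N p`, with `charpoly (ρ Frob_ℓ) = X² - a ℓ X + ℓ` for every Frobenius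
element at a prime `ℓ ∤ N p`.

Inputs (all landed): CYC (`eps p κ`, this directory), ALLQUAD (`H39.isQuad_of_isFrobeniusAt`,
helper39), lemma (D) over an algebraically closed field (`H3.exists_rep_two_noirr_end`, helper3).
-/

set_option autoImplicit false
set_option linter.style.haveILetI false

open Polynomial

namespace Fermat.Agent.S29.H54

local notation "Qbar" => AlgebraicClosure ℚ
local notation "Γ" => (AlgebraicClosure ℚ ≃ₐ[ℚ] AlgebraicClosure ℚ)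

/-- A prime not dividing `N * p` is different from `p`. -/
theorem ne_of_not_dvd_mul {N p ℓ : ℕ} (h : ¬ ℓ ∣ N * p) : ℓ ≠ p := by
  rintro rfl
  exact h (dvd_mul_left _ _)

/-- **(RHO)** -/
theorem rho_of_module {κ : Type} [Field κ] [IsAlgClosed κ] {p : ℕ} [Fact p.Prime] [CharP κ p]
    {N : ℕ} (hN : N ≠ 0) {a : ℕ → κ} (h : ModuleStatement N p κ a) :
    ∃ ρ : Γ →* Module.End κ (Fin 2 → κ),
      (∃ L : IntermediateField ℚ Qbar, FiniteDimensional ℚ L ∧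
        ∀ σ : Γ, (∀ x ∈ L, σ x = x) → ρ σ = 1) ∧
      (∀ ℓ : ℕ, ℓ.Prime → ¬ ℓ ∣ N * p → ∀ A : ValuationSubring Qbar, A.LiesOverPrime ℓ →
        ∀ σ : Γ, A.IsFrobeniusAt σ ℓ →
          LinearMap.charpoly (ρ σ) = X ^ 2 - C (a ℓ) * X + C (ℓ : κ)) ∧
      (∀ ℓ : ℕ, ℓ.Prime → ¬ ℓ ∣ N * p → ∀ A : ValuationSubring Qbar, A.LiesOverPrime ℓ →
        ∀ σ ∈ A.inertiaSubgroupIn ℚ, ρ σ = 1) := by
  have hp : p.Prime := Fact.out
  obtain ⟨W, iW, iM, r, hnt, hfin, hlev, hquad, hunr⟩ := h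
  have hNp : N * p ≠ 0 := mul_ne_zero hN hp.ne_zero
  -- every Frobenius element outside `N p` is quadratic
  have hfrobrel : ∀ ℓ : ℕ, ℓ.Prime → ¬ ℓ ∣ N * p → ∀ A : ValuationSubring Qbar,
      A.LiesOverPrime ℓ → ∀ σ : Γ, A.IsFrobeniusAt σ ℓ →
        r σ * r σ - a ℓ • r σ + ((eps p κ σ : κˣ) : κ) • (1 : Module.End κ W) = 0 := by
    intro ℓ hℓ hℓN A hA σ hσ
    rw [eps_of_isFrobeniusAt A hℓ hA (ne_of_not_dvd_mul hℓN) hσ]
    exact hquad ℓ hℓ hℓN A hA σ hσ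
  -- hence every element is quadratic
  have hall : ∀ g : Γ, Fermat.Agent.S29.H39.IsQuad r (eps p κ) g := by
    refine Fermat.Agent.S29.H39.isQuad_of_isFrobeniusAt r (eps p κ) hlev
      (eps_factorsThroughFiniteLevel p κ) (N * p).primeFactors ?_
    intro ℓ hℓ hℓS A hA σ hσ
    have hℓN : ¬ ℓ ∣ N * p := fun hdvd => hℓS (Nat.mem_primeFactors.mpr ⟨hℓ, hdvd, hNp⟩)
    exact ⟨a ℓ, hfrobrel ℓ hℓ hℓN A hA σ hσ⟩
  -- lemma (D)
  obtain ⟨ρ, hchar, hker⟩ := Fermat.Agent.S29.H3.exists_rep_two_noirr_end r (eps p κ) hall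
  refine ⟨ρ, ?_, ?_, ?_⟩
  · obtain ⟨L₁, hL₁, h₁⟩ := hlev
    obtain ⟨L₂, hL₂, h₂⟩ := eps_factors (p := p) (κ := κ)
    refine ⟨L₁ ⊔ L₂, IntermediateField.finiteDimensional_sup L₁ L₂, fun σ hσ => ?_⟩
    exact hker σ (h₁ σ fun x hx => hσ x ((le_sup_left : L₁ ≤ L₁ ⊔ L₂) hx))
      (h₂ σ fun x hx => hσ x ((le_sup_right : L₂ ≤ L₁ ⊔ L₂) hx))
  · intro ℓ hℓ hℓN A hA σ hσ
    rw [hchar σ (a ℓ) (hfrobrel ℓ hℓ hℓN A hA σ hσ),
      eps_of_isFrobeniusAt A hℓ hA (ne_of_not_dvd_mul hℓN) hσ]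
  · intro ℓ hℓ hℓN A hA σ hσ
    exact hker σ (hunr ℓ hℓ hℓN A hA σ hσ)
      (eps_of_mem_inertia A hℓ hA (ne_of_not_dvd_mul hℓN) hσ)

end Fermat.Agent.S29.H54
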