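import Mathlib
import Fermat.Agent.S29.H54.Rho
import Fermat.Agent.S29.H54.Attach
import Fermat.Agent.S29.H97.EigenRes

/-!
# Program A: the top of S29 (helper54)

`s29_of_topHyp`: the frozen statement S29 for a prime `p` from the single hypothesis `TopHyp p`
(the module statement for all levels `N ≠ 0`, all normalised eigenforms and all maximal ideals of
`ℤ̄` above `p`).  Level `0` is vacuous; `𝔪 := ker φ`, `κ := ℤ̄ ⧸ 𝔪` is algebraically closed, the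
representation over `κ` comes from `rho_of_module`, and it is base-changed to `k`.
-/

set_option autoImplicit false
set_option linter.style.haveILetI false

open Polynomial

namespace Fermat.Agent.S29.H54

local notation "Qbar" => AlgebraicClosure ℚ
local notation "Γ" => (AlgebraicClosure ℚ ≃ₐ[ℚ] AlgebraicClosure ℚ)

/-- The residue field `ℤ̄ ⧸ 𝔪` has characteristic `p` when `p ∈ 𝔪`. -/
theorem charP_quotient {p : ℕ} (hp : p.Prime) (𝔪 : Ideal (integralClosure ℤ ℂ)) [h𝔪 : 𝔪.IsMaximal]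
    (hpm : (p : integralClosure ℤ ℂ) ∈ 𝔪) : CharP (integralClosure ℤ ℂ ⧸ 𝔪) p := by
  haveI : Nontrivial (integralClosure ℤ ℂ ⧸ 𝔪) := Ideal.Quotient.nontrivial_iff.mpr h𝔪.ne_top
  rw [CharP.charP_iff_prime_eq_zero hp]
  have h1 : (Ideal.Quotient.mk 𝔪 (p : integralClosure ℤ ℂ)) = 0 :=
    Ideal.Quotient.eq_zero_iff_mem.mpr hpm
  rw [← h1, map_natCast]

/-- **The representation attached to an eigenform over `ℤ̄ ⧸ 𝔪`**, from the module hypothesis. -/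
theorem rho_of_moduleHyp {p : ℕ} (hp : p.Prime) {N : ℕ} (hN : N ≠ 0)
    (g : CuspForm (CongruenceSubgroup.Gamma0 N) 2)
    (𝔪 : Ideal (integralClosure ℤ ℂ)) (h𝔪 : 𝔪.IsMaximal) (hpm : (p : integralClosure ℤ ℂ) ∈ 𝔪)
    (h : ModuleHyp N g p 𝔪 h𝔪) :
    letI : Field (integralClosure ℤ ℂ ⧸ 𝔪) := @Ideal.Quotient.field _ _ 𝔪 h𝔪
    ∃ ρ : Γ →* Module.End (integralClosure ℤ ℂ ⧸ 𝔪) (Fin 2 → integralClosure ℤ ℂ ⧸ 𝔪),
      (∃ L : IntermediateField ℚ Qbar, FiniteDimensional ℚ L ∧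
        ∀ σ : Γ, (∀ x ∈ L, σ x = x) → ρ σ = 1) ∧
      (∀ ℓ : ℕ, ℓ.Prime → ¬ ℓ ∣ N * p → ∀ A : ValuationSubring Qbar, A.LiesOverPrime ℓ →
        ∀ σ : Γ, A.IsFrobeniusAt σ ℓ →
          ∃ a : integralClosure ℤ ℂ, (a : ℂ) = ModularFormClass.qCoeff g ℓ ∧
            LinearMap.charpoly (ρ σ) =
              X ^ 2 - C (Ideal.Quotient.mk 𝔪 a) * X + C (ℓ : integralClosure ℤ ℂ ⧸ 𝔪)) ∧
      (∀ ℓ : ℕ, ℓ.Prime → ¬ ℓ ∣ N * p → ∀ A : ValuationSubring Qbar, A.LiesOverPrime ℓ →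
        ∀ σ ∈ A.inertiaSubgroupIn ℚ, ρ σ = 1) := by
  haveI := h𝔪
  letI : Field (integralClosure ℤ ℂ ⧸ 𝔪) := @Ideal.Quotient.field _ _ 𝔪 h𝔪
  haveI : Fact p.Prime := ⟨hp⟩
  haveI : IsAlgClosed (integralClosure ℤ ℂ ⧸ 𝔪) := Fermat.Agent.S29.H97.isAlgClosed_quotient 𝔪
  haveI : CharP (integralClosure ℤ ℂ ⧸ 𝔪) p := charP_quotient hp 𝔪 hpm
  obtain ⟨a, ha, hmod⟩ := h
  obtain ⟨ρ, hfin, hchar, hunr⟩ := rho_of_module hN hmod
  exact ⟨ρ, hfin, fun ℓ hℓ hℓN A hA σ hσ => ⟨a ℓ, ha ℓ hℓ hℓN, hchar ℓ hℓ hℓN A hA σ hσ⟩, hunr⟩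

/-- **TOP29**: the frozen statement S29 (for the prime `p`) from `TopHyp p`. -/
theorem s29_of_topHyp {p : ℕ} (hp : p.Prime) (h : TopHyp p)
    {N : ℕ} {g : CuspForm (CongruenceSubgroup.Gamma0 N) 2} (hg : g.IsNormalizedEigenform)
    {k : Type} [Field k] [CharP k p] (φ : integralClosure ℤ ℂ →+* k) :
    ∃ ρ : ResidualGaloisRep k, ρ.IsAttachedTo g φ ∧
      ∀ ℓ : ℕ, ℓ.Prime → ¬ ℓ ∣ N * p → ρ.IsUnramifiedAt ℓ := by
  haveI : Fact p.Prime := ⟨hp⟩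
  rcases eq_or_ne N 0 with rfl | hN
  · exact residual_level_zero g p φ
  haveI : NeZero N := ⟨hN⟩
  have hmax : (RingHom.ker φ).IsMaximal := Fermat.Agent.S29.H97.ker_isMaximal_of_charP p φ
  have hpm : (p : integralClosure ℤ ℂ) ∈ RingHom.ker φ := by
    rw [RingHom.mem_ker, map_natCast]
    exact CharP.cast_eq_zero k p
  letI : Field (integralClosure ℤ ℂ ⧸ RingHom.ker φ) := @Ideal.Quotient.field _ _ _ hmax
  obtain ⟨ρ, hfin, hchar, hunr⟩ :=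
    rho_of_moduleHyp hp hN g (RingHom.ker φ) hmax hpm (h N g hg (RingHom.ker φ) hmax hpm)
  refine residual_of_rep g p φ (RingHom.kerLift φ) (Ideal.Quotient.mk (RingHom.ker φ))
    (fun a => RingHom.kerLift_mk φ a) ρ (Module.finrank_fin_fun _) hfin ?_ hunr
  intro ℓ hℓ hℓN hℓk A hA σ hσ
  have hℓp : ℓ ≠ p := by
    rintro rfl
    exact hℓk (CharP.cast_eq_zero k ℓ)
  have hℓNp : ¬ ℓ ∣ N * p := fun hd =>
    (hℓ.dvd_mul.mp hd).elim hℓN fun h2 => hℓp ((Nat.prime_dvd_prime_iff_eq hℓ hp).mp h2)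
  exact hchar ℓ hℓ hℓNp A hA σ hσ

end Fermat.Agent.S29.H54
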